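import Fermat.Agent.LT.T7.H227.CovolSpec

/-!
# Row LT, tower T7, leaf T7.14.3c.T `H227.TopoC227` (helper600)

OFF-MAIN.  `topoC600 K : H227.TopoC227 K`, VERBATIM against `LT/T7/H227/CovolSpec.lean`
(helper227, sha256 52f0b3fe53f9c623).

* the rows which are integral at every finite place form an open set: the integral finite adeles
  are open in the restricted product, and the finite part of a coordinate is continuous;
* `pairOf671` is continuous: `ringEquiv_mixedSpace` is given coordinatewise by the (isometric)
  embeddings of the completions.
-/

set_option autoImplicit false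
set_option linter.unusedSectionVars false

open NumberField NumberField.mixedEmbedding NumberField.InfinitePlace IsDedekindDomain
  MeasureTheory
open scoped ENNReal Matrix

noncomputable section

namespace Fermat.Agent.LT.T7.H600

open Fermat.Agent.LT.H556 Fermat.Agent.LT.H556.A0 Fermat.Agent.LT.T7.Rigid
  Fermat.Agent.LT.T7.H671 Fermat.Agent.LT.T7

variable (K : Type) [Field K] [NumberField K]

/-- The integral finite adeles are open. -/
theorem isOpen_integralFinAdeles600 :
    IsOpen {t : FiniteAdeleRing (𝓞 K) K | ∀ v, t v ∈ v.adicCompletionIntegers K} :=
  RestrictedProduct.isOpen_forall_mem (fun _ => Valued.isOpen_valuationSubring _)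

/-- The finite part of a coordinate of a row is continuous. -/
theorem continuous_finCoord600 (j : Fin 2) :
    Continuous fun r : Fin 2 → Adl K => (r j).2 :=
  continuous_snd.comp (continuous_apply j)

/-- The infinite part of a coordinate of a row is continuous. -/
theorem continuous_infCoord600 (j : Fin 2) :
    Continuous fun r : Fin 2 → Adl K => (r j).1 :=
  continuous_fst.comp (continuous_apply j)

/-- The integral rows are open. -/
theorem isOpen_intRows600 : IsOpen (H227.intRows227 K) := by
  have hEq : H227.intRows227 K = ⋂ j : Fin 2, (fun r : Fin 2 → Adl K => (r j).2) ⁻¹'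
      {t : FiniteAdeleRing (𝓞 K) K | ∀ v, t v ∈ v.adicCompletionIntegers K} := by
    ext r
    simp only [H227.intRows227, IsIntRow671, Set.mem_ofPred_eq, Set.mem_iInter, Set.mem_preimage]
    constructor
    · intro h j v
      exact h v j
    · intro h v j
      exact h j v
  rw [hEq]
  exact isOpen_iInter_of_finite fun j =>
    (isOpen_integralFinAdeles600 K).preimage (continuous_finCoord600 K j)

/-- `ringEquiv_mixedSpace` is continuous. -/
theorem continuous_ringEquiv_mixedSpace600 :
    Continuous fun x : InfiniteAdeleRing K => InfiniteAdeleRing.ringEquiv_mixedSpace K x := by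
  have hEq : (fun x : InfiniteAdeleRing K => InfiniteAdeleRing.ringEquiv_mixedSpace K x)
      = fun x => (fun (v : {w : InfinitePlace K // IsReal w}) =>
            InfinitePlace.Completion.extensionEmbeddingOfIsReal v.2 (x v),
          fun (v : {w : InfinitePlace K // IsComplex w}) =>
            InfinitePlace.Completion.extensionEmbedding v.1 (x v)) := by
    funext x
    exact InfiniteAdeleRing.ringEquiv_mixedSpace_apply K x
  rw [hEq]
  refine Continuous.prodMk (continuous_pi fun v => ?_) (continuous_pi fun v => ?_)
  · exact (InfinitePlace.Completion.isometry_extensionEmbeddingOfIsReal v.2).continuous.comp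
      (continuous_apply v.1)
  · exact (InfinitePlace.Completion.isometry_extensionEmbedding v.1).continuous.comp
      (continuous_apply v.1)

/-- `infMixed671` is continuous. -/
theorem continuous_infMixed600 : Continuous (infMixed671 : Adl K → mixedSpace K) :=
  (continuous_ringEquiv_mixedSpace600 K).comp continuous_fst

/-- `pairOf671` is continuous. -/
theorem continuous_pairOf600 : Continuous (pairOf671 : (Fin 2 → Adl K) → Pair671 K) :=
  Continuous.prodMk ((continuous_infMixed600 K).comp (continuous_apply 0))
    ((continuous_infMixed600 K).comp (continuous_apply 1))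

/-- **T7.14.3c.T (topology).** -/
theorem topoC600 : H227.TopoC227 K :=
  ⟨isOpen_intRows600 K, continuous_pairOf600 K⟩

end Fermat.Agent.LT.T7.H600

end
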