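import Fermat.Agent.LT.T7.H600.IotaInf

/-!
# Row LT, tower T7, leaf T7.L2.1.C2.4 `H305.IotaC305` (spare, helper600): THE CUT and its top

OFF-MAIN.  Definitions, frozen sub-leaf Props, PROVED top.  No hole, nothing assumed.

The base change of adeles is CONSTRUCTED (`iota600 K K' : 𝔸_K →+* 𝔸_{K'}`, `IotaInf.lean`): at
the finite places `RestrictedProduct.mapAlongRingHom` along `w ↦ w ∩ 𝓞_K` (`below600`) with the
inclusions of the completions `T6.H267.locIncl` (helper267), at the infinite places Mathlib's
`NumberField.LiesOver.completionMap` along `w' ↦ w' ∘ (K → K')` (`belowInf600`).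

PROVED here (no hypothesis): the fields `cont`, `rat`, `fin`, `inf` of `H305.IsAdeleBase305`.

    iotaC_of_leaves600 : IotaClosedC600 K K' → IotaNormC600 K K' → IotaFixedC600 K K' →
        IotaOntoC600 K K' → H305.IotaC305 K K'

## The four sub-leaves (all about the EXPLICIT map `iota600 K K'`)

* `IotaClosedC600` : `iota600` is a closed embedding.  (Finite part: `U = ∏ 𝒪_v` is compact open,
  `ι⁻¹(∏ 𝒪_w) = U` by `locB600_mem_integers_iff`, a continuous injective map from a compact space
  to a Hausdorff space is a closed embedding, so `ι` is inducing at `0`; a group homomorphism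
  which is inducing at `0` is inducing; the range is complete, hence closed.  Infinite part:
  `‖ι x‖ = ‖x‖` for the sup norms, the local maps are isometries and `belowInf600` is onto.)
* `IotaNormC600`   : `‖ι x‖_{𝔸_{K'}} = ‖x‖_{𝔸_K} ^ [K' : K]` for ideles `x`
  (`valued_locB600`, `N w = N v ^ f`, `∑_{w ∣ v} e_w f_w = [K' : K]`
  (`Ideal.sum_ramification_inertia`), `∑_{w' ∣ v} mult w' = [K' : K] mult v`).
* `IotaFixedC600`  : `σ_𝔸 (ι x) = ι x` (from `H305.SigmaLocC305 K'`: `s_w ∘ locIncl v w` and
  `locIncl v (σ w)` are continuous ring homomorphisms which agree on the dense subfield `K`).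
* `IotaOntoC600`   : a `σ_𝔸`-fixed adele of `K'` is in the image (from `H305.SigmaLocC305 K'`:
  `σ` permutes the places over `v` transitively; the trace argument of `T6.H267.fixed_mem_range`
  at a place with one place above, `K'_w = K_v` at a split place; the components at the places
  over `v` are the images of ONE element of `K_v`).
-/

set_option autoImplicit false
set_option linter.unusedSectionVars false

open IsDedekindDomain NumberField

noncomputable section

namespace Fermat.Agent.LT.T7.H600

open Fermat.Agent.LT.H556 Fermat.Agent.LT.H556.A0 Fermat.Agent.LT.T7 Fermat.Agent.LT.T6.H267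
open scoped ComplexConjugate

variable (K K' : Type) [Field K] [NumberField K] [Field K'] [NumberField K'] [Algebra K K']

/-- **Sub-leaf CLOSED.**  The base change of adeles is a closed embedding. -/
def IotaClosedC600 : Prop :=
  Topology.IsClosedEmbedding (iota600 K K')

/-- **Sub-leaf NORM.**  `‖ι x‖ = ‖x‖ ^ [K' : K]` on the ideles. -/
def IotaNormC600 : Prop :=
  ∀ x : (Adl K)ˣ,
    T5.adNorm (iota600 K K' (x : Adl K)) = T5.adNorm (x : Adl K) ^ Module.finrank K K'

/-- **Sub-leaf FIXED.**  The image of the base change is fixed by `σ_𝔸`. -/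
def IotaFixedC600 : Prop :=
  H305.SigmaLocC305 K' →
  ∀ D : CompData K K', IsCompData D → IsCycExt K K' D.l →
    ∀ x : Adl K, D.s.σA (iota600 K K' x) = iota600 K K' x

/-- **Sub-leaf ONTO.**  Every adele of `K'` fixed by `σ_𝔸` is in the image of the base change. -/
def IotaOntoC600 : Prop :=
  H305.SigmaLocC305 K' →
  ∀ D : CompData K K', IsCompData D → IsCycExt K K' D.l → TotCplx K →
    ∀ y : Adl K', D.s.σA y = y → ∃ x : Adl K, iota600 K K' x = y

variable {K K'}

/-- The field `fin` of `IsAdeleBase305` for `iota600`. -/
theorem iota600_fin (v : HeightOneSpectrum (𝓞 K)) (w : HeightOneSpectrum (𝓞 K'))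
    (h : PlaceOver K K' v w) :
    ∃ (e : ℕ) (i : v.adicCompletion K →+* w.adicCompletion K'), 0 < e ∧
      (∀ x : K, i (algebraMap K (v.adicCompletion K) x)
        = algebraMap K' (w.adicCompletion K') (algebraMap K K' x)) ∧
      (∀ x : v.adicCompletion K, Valued.v (i x) = Valued.v x ^ e) ∧
      ∀ x : Adl K, T5.finHom w (iota600 K K' x) = i (T5.finHom v x) := by
  obtain rfl := (placeOver_iff600 v w).mp h
  exact ⟨ramIdx (below600 K K' w) w, locB600 K K' w,
    Nat.pos_of_ne_zero (ramIdx_ne_zero _ _), fun x => locB600_algebraMap w x,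
    fun x => valued_locB600 w x, fun x => finHom_iota600 w x⟩

/-- The field `inf` of `IsAdeleBase305` for `iota600`. -/
theorem iota600_inf (w' : InfinitePlace K') :
    (∀ x : Adl K, T5.infHom w' (iota600 K K' x)
        = T5.infHom (w'.comap (algebraMap K K')) x) ∨
      ∀ x : Adl K, T5.infHom w' (iota600 K K' x)
        = conj (T5.infHom (w'.comap (algebraMap K K')) x) := by
  rcases extEmb_locInf600 (K := K) w' with h | h
  · left
    intro x
    rw [infHom_iota600]
    exact h _
  · right
    intro x
    rw [infHom_iota600]
    exact h _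

/-- **THE TOP**: `IotaC305` from the four sub-leaves. -/
theorem iotaC_of_leaves600 (hS : H305.SigmaLocC305 K') (hC : IotaClosedC600 K K')
    (hN : IotaNormC600 K K') (hF : IotaFixedC600 K K') (hO : IotaOntoC600 K K') :
    H305.IotaC305 K K' := by
  intro D hD hcyc hcplx
  refine ⟨iota600 K K', ?_⟩
  exact
    { cont := continuous_iota600
      closed := hC
      rat := iota600_algebraMap
      fixed := hF hS D hD hcyc
      onto := hO hS D hD hcyc hcplx
      norm := by
        intro x
        rw [hN x]
        congr 1
        exact hcyc.degree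
      fin := iota600_fin
      inf := iota600_inf }

/-! ## Appendix: the equation lemmas of the definitions are realised HERE -/

theorem eqns_realised_iotaTop600 : True := by
  have _a1 := @IotaClosedC600.eq_1
  have _a2 := @IotaClosedC600.eq_def
  have _a3 := @IotaClosedC600.eq_unfold
  have _a4 := @IotaNormC600.eq_1
  have _a5 := @IotaNormC600.eq_def
  have _a6 := @IotaNormC600.eq_unfold
  have _a7 := @IotaFixedC600.eq_1
  have _a8 := @IotaFixedC600.eq_def
  have _a9 := @IotaFixedC600.eq_unfold
  have _a10 := @IotaOntoC600.eq_1
  have _a11 := @IotaOntoC600.eq_def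
  have _a12 := @IotaOntoC600.eq_unfold
  trivial

end Fermat.Agent.LT.T7.H600

end
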