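import Fermat.Agent.LT.T7.H305.MatchSpec
import Fermat.Agent.LT.T6.H267.InstExt

/-!
# Row LT, tower T7, leaf T7.L2.1.C2.4 `H305.IotaC305` (spare, helper600): the finite part

OFF-MAIN.  The base change of the finite adeles `𝔸_{K,f} → 𝔸_{K',f}`:
`RestrictedProduct.mapAlongRingHom` along `w ↦ w ∩ 𝓞_K` with the inclusions of the completions
`T6.H267.locIncl` (helper267).
-/

set_option autoImplicit false
set_option linter.unusedSectionVars false

open IsDedekindDomain NumberField

noncomputable section

namespace Fermat.Agent.LT.T7.H600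

open Fermat.Agent.LT.H556 Fermat.Agent.LT.H556.A0 Fermat.Agent.LT.T7 Fermat.Agent.LT.T6.H267

variable (K K' : Type) [Field K] [NumberField K] [Field K'] [NumberField K'] [Algebra K K']

/-- The place of `K` below the place `w` of `K'`. -/
def below600 (w : HeightOneSpectrum (𝓞 K')) : HeightOneSpectrum (𝓞 K) where
  asIdeal := Ideal.under (𝓞 K) w.asIdeal
  isPrime := Ideal.IsPrime.under (𝓞 K) w.asIdeal
  ne_bot := Ideal.under_ne_bot (𝓞 K) w.ne_bot

instance liesOver_below600 (w : HeightOneSpectrum (𝓞 K')) :
    w.asIdeal.LiesOver (below600 K K' w).asIdeal :=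
  ⟨rfl⟩

variable {K K'}

theorem mem_below600 (w : HeightOneSpectrum (𝓞 K')) (x : 𝓞 K) :
    x ∈ (below600 K K' w).asIdeal ↔ algebraMap (𝓞 K) (𝓞 K') x ∈ w.asIdeal :=
  Iff.rfl

/-- `PlaceOver v w` means `v = below w`. -/
theorem placeOver_iff600 (v : HeightOneSpectrum (𝓞 K)) (w : HeightOneSpectrum (𝓞 K')) :
    PlaceOver K K' v w ↔ v = below600 K K' w := by
  constructor
  · intro h
    ext x
    rw [mem_below600]
    exact h x (algebraMap (𝓞 K) (𝓞 K') x) rfl
  · rintro rfl x y hxy
    rw [mem_below600]
    have : algebraMap (𝓞 K) (𝓞 K') x = y :=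
      RingOfIntegers.ext (by rw [hxy]; rfl)
    rw [this]

variable (K K')

/-- The fibres of `w ↦ w ∩ 𝓞_K` are finite. -/
theorem finite_fibre_below600 (v : HeightOneSpectrum (𝓞 K)) :
    (below600 K K' ⁻¹' {v}).Finite := by
  have hfin : (v.asIdeal.primesOver (𝓞 K')).Finite :=
    IsDedekindDomain.primesOver_finite v.asIdeal (𝓞 K')
  refine Set.Finite.of_finite_image (f := HeightOneSpectrum.asIdeal) (hfin.subset ?_) ?_
  · rintro _ ⟨w, hw, rfl⟩
    have hw' : below600 K K' w = v := hw
    refine ⟨w.isPrime, ⟨?_⟩⟩
    rw [← hw']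
    rfl
  · intro w _ w' _ h
    exact HeightOneSpectrum.ext h

theorem tendsto_below600 :
    Filter.Tendsto (below600 K K') Filter.cofinite Filter.cofinite :=
  Filter.Tendsto.cofinite_of_finite_preimage_singleton (finite_fibre_below600 K K')

/-- The local inclusion at `w` (over the place below). -/
def locB600 (w : HeightOneSpectrum (𝓞 K')) :
    (below600 K K' w).adicCompletion K →+* w.adicCompletion K' :=
  locIncl (below600 K K' w) w

variable {K K'}

theorem locB600_algebraMap (w : HeightOneSpectrum (𝓞 K')) (x : K) :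
    locB600 K K' w (algebraMap K ((below600 K K' w).adicCompletion K) x)
      = algebraMap K' (w.adicCompletion K') (algebraMap K K' x) :=
  locIncl_algebraMap _ _ x

theorem valued_locB600 (w : HeightOneSpectrum (𝓞 K'))
    (x : (below600 K K' w).adicCompletion K) :
    Valued.v (locB600 K K' w x) = Valued.v x ^ ramIdx (below600 K K' w) w :=
  valued_locIncl _ _ x

theorem continuous_locB600 (w : HeightOneSpectrum (𝓞 K')) : Continuous (locB600 K K' w) :=
  continuous_locIncl _ _

/-- `locB600` maps integers to integers, and only integers. -/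
theorem locB600_mem_integers_iff (w : HeightOneSpectrum (𝓞 K'))
    (x : (below600 K K' w).adicCompletion K) :
    locB600 K K' w x ∈ w.adicCompletionIntegers K'
      ↔ x ∈ (below600 K K' w).adicCompletionIntegers K := by
  rw [HeightOneSpectrum.mem_adicCompletionIntegers, HeightOneSpectrum.mem_adicCompletionIntegers,
    valued_locB600]
  exact pow_le_one_iff (ramIdx_ne_zero _ _)

variable (K K')

theorem eventually_mapsTo_locB600 :
    ∀ᶠ w : HeightOneSpectrum (𝓞 K') in Filter.cofinite,
      Set.MapsTo (locB600 K K' w)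
        ((below600 K K' w).adicCompletionIntegers K : Set ((below600 K K' w).adicCompletion K))
        (w.adicCompletionIntegers K' : Set (w.adicCompletion K')) :=
  Filter.Eventually.of_forall fun w x hx => (locB600_mem_integers_iff w x).mpr hx

/-- **The base change of the finite adeles.** -/
def iotaFin600 : FiniteAdeleRing (𝓞 K) K →+* FiniteAdeleRing (𝓞 K') K' :=
  RestrictedProduct.mapAlongRingHom
    (fun v : HeightOneSpectrum (𝓞 K) => v.adicCompletion K)
    (fun w : HeightOneSpectrum (𝓞 K') => w.adicCompletion K')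
    (below600 K K') (tendsto_below600 K K')
    (fun w => locB600 K K' w) (eventually_mapsTo_locB600 K K')

variable {K K'}

theorem iotaFin600_apply (x : FiniteAdeleRing (𝓞 K) K) (w : HeightOneSpectrum (𝓞 K')) :
    iotaFin600 K K' x w = locB600 K K' w (x (below600 K K' w)) :=
  rfl

theorem continuous_iotaFin600 : Continuous (iotaFin600 K K') :=
  RestrictedProduct.mapAlong_continuous
    (fun v : HeightOneSpectrum (𝓞 K) => v.adicCompletion K)
    (fun w : HeightOneSpectrum (𝓞 K') => w.adicCompletion K')
    (below600 K K') (tendsto_below600 K K')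
    (fun w => locB600 K K' w) (eventually_mapsTo_locB600 K K')
    (fun w => continuous_locB600 w)

/-! ## Appendix: the equation lemmas of the definitions are realised HERE -/

theorem eqns_realised_iotaFin600 : True := by
  have _a1 := @below600.eq_1
  have _a2 := @below600.eq_def
  have _a3 := @below600.eq_unfold
  have _a4 := @locB600.eq_1
  have _a5 := @locB600.eq_def
  have _a6 := @locB600.eq_unfold
  have _a7 := @iotaFin600.eq_1
  have _a8 := @iotaFin600.eq_def
  have _a9 := @iotaFin600.eq_unfold
  trivial

end Fermat.Agent.LT.T7.H600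

end
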