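import Fermat.Agent.LT.T7.H600.IotaFin

/-!
# Row LT, tower T7, leaf T7.L2.1.C2.4 `H305.IotaC305` (spare, helper600): the infinite part

OFF-MAIN.  The base change of the infinite adeles `K_∞ → K'_∞` (Mathlib's
`NumberField.LiesOver.completionMap` along `w' ↦ w' ∘ (K → K')`), and the base change of the
adeles `iota600 : 𝔸_K →+* 𝔸_{K'}` with its formal properties: continuity, compatibility with
`K → K'`, the local components.
-/

set_option autoImplicit false
set_option linter.unusedSectionVars false

open IsDedekindDomain NumberField

noncomputable section

namespace Fermat.Agent.LT.T7.H600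

open Fermat.Agent.LT.H556 Fermat.Agent.LT.H556.A0 Fermat.Agent.LT.T7 Fermat.Agent.LT.T6.H267
open scoped ComplexConjugate

variable (K K' : Type) [Field K] [NumberField K] [Field K'] [NumberField K'] [Algebra K K']

/-- The infinite place of `K` below the infinite place `w` of `K'`. -/
def belowInf600 (w : InfinitePlace K') : InfinitePlace K := w.comap (algebraMap K K')

instance liesOver_belowInf600 (w : InfinitePlace K') : w.LiesOver (belowInf600 K K' w) :=
  ⟨rfl⟩

/-- The local inclusion at the infinite place `w`. -/
def locInf600 (w : InfinitePlace K') : (belowInf600 K K' w).Completion →+* w.Completion :=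
  NumberField.LiesOver.completionMap

variable {K K'}

theorem continuous_locInf600 (w : InfinitePlace K') : Continuous (locInf600 K K' w) :=
  NumberField.LiesOver.continuous_completionMap

theorem locInf600_algebraMap (w : InfinitePlace K') (x : K) :
    locInf600 K K' w (algebraMap K (belowInf600 K K' w).Completion x)
      = algebraMap K' w.Completion (algebraMap K K' x) := by
  have h := NumberField.LiesOver.completionMap_coe (v := belowInf600 K K' w) (w := w)
    (WithAbs.toAbs (belowInf600 K K' w).1 x)
  exact h

/-- The embedding of the completion at `w` is the embedding of the completion at the place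
below, on the elements of `K`. -/
theorem extEmb_algebraMap600 (v : InfinitePlace K) (x : K) :
    InfinitePlace.Completion.extensionEmbedding v (algebraMap K v.Completion x)
      = v.embedding x := by
  rw [InfinitePlace.Completion.algebraMap_apply, InfinitePlace.Completion.extensionEmbedding_coe]
  rfl

/-- The coordinate at `w` of the local inclusion is the coordinate at the place below, or its
complex conjugate. -/
theorem extEmb_locInf600 (w : InfinitePlace K') :
    (∀ x : (belowInf600 K K' w).Completion,
        InfinitePlace.Completion.extensionEmbedding w (locInf600 K K' w x)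
          = InfinitePlace.Completion.extensionEmbedding (belowInf600 K K' w) x) ∨
      ∀ x : (belowInf600 K K' w).Completion,
        InfinitePlace.Completion.extensionEmbedding w (locInf600 K K' w x)
          = conj (InfinitePlace.Completion.extensionEmbedding (belowInf600 K K' w) x) := by
  have hcl : Continuous fun x : (belowInf600 K K' w).Completion =>
      InfinitePlace.Completion.extensionEmbedding w (locInf600 K K' w x) :=
    (InfinitePlace.Completion.isometry_extensionEmbedding w).continuous.comp
      (continuous_locInf600 w)
  have hcr : Continuous fun x : (belowInf600 K K' w).Completion =>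
      InfinitePlace.Completion.extensionEmbedding (belowInf600 K K' w) x :=
    (InfinitePlace.Completion.isometry_extensionEmbedding _).continuous
  have hK : ∀ a : WithAbs (belowInf600 K K' w).1,
      (⟨(a : (belowInf600 K K' w).1.Completion)⟩ : (belowInf600 K K' w).Completion)
        = algebraMap K (belowInf600 K K' w).Completion (WithAbs.equiv _ a) := by
    intro a
    rw [InfinitePlace.Completion.algebraMap_apply]
    rfl
  rcases InfinitePlace.LiesOver.embedding_comp_eq_or_conjugate_embedding_comp_eq w
      (belowInf600 K K' w) with h | h
  · left
    intro x
    induction x using InfinitePlace.Completion.induction_on with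
    | hp => exact isClosed_eq hcl hcr
    | ih a =>
      rw [hK a, locInf600_algebraMap, extEmb_algebraMap600, extEmb_algebraMap600, ← h]
      rfl
  · right
    intro x
    induction x using InfinitePlace.Completion.induction_on with
    | hp => exact isClosed_eq hcl (Complex.continuous_conj.comp hcr)
    | ih a =>
      rw [hK a, locInf600_algebraMap, extEmb_algebraMap600, extEmb_algebraMap600, ← h]
      simp [ComplexEmbedding.conjugate]

variable (K K')

/-- **The base change of the infinite adeles.** -/
def iotaInf600 : InfiniteAdeleRing K →+* InfiniteAdeleRing K' :=
  RingHom.pi fun w : InfinitePlace K' =>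
    (locInf600 K K' w).comp
      (Pi.evalRingHom (fun v : InfinitePlace K => v.Completion) (belowInf600 K K' w))

variable {K K'}

theorem iotaInf600_apply (x : InfiniteAdeleRing K) (w : InfinitePlace K') :
    iotaInf600 K K' x w = locInf600 K K' w (x (belowInf600 K K' w)) :=
  rfl

theorem continuous_iotaInf600 : Continuous (iotaInf600 K K') :=
  continuous_pi fun w => (continuous_locInf600 w).comp (continuous_apply (belowInf600 K K' w))

variable (K K')

/-- **The base change of the adeles** `𝔸_K → 𝔸_{K'}`. -/
def iota600 : Adl K →+* Adl K' :=
  RingHom.prodMap (iotaInf600 K K') (iotaFin600 K K')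

variable {K K'}

theorem iota600_fst (x : Adl K) : (iota600 K K' x).1 = iotaInf600 K K' x.1 := rfl

theorem iota600_snd (x : Adl K) : (iota600 K K' x).2 = iotaFin600 K K' x.2 := rfl

theorem continuous_iota600 : Continuous (iota600 K K') :=
  (continuous_iotaInf600.comp continuous_fst).prodMk (continuous_iotaFin600.comp continuous_snd)

/-- The finite components of `ι x`. -/
theorem finHom_iota600 (w : HeightOneSpectrum (𝓞 K')) (x : Adl K) :
    T5.finHom w (iota600 K K' x) = locB600 K K' w (T5.finHom (below600 K K' w) x) :=
  rfl

/-- The infinite components of `ι x`. -/
theorem infHom_iota600 (w : InfinitePlace K') (x : Adl K) :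
    T5.infHom w (iota600 K K' x)
      = InfinitePlace.Completion.extensionEmbedding w
          (locInf600 K K' w (x.1 (belowInf600 K K' w))) :=
  rfl

theorem infHom_eq600 (v : InfinitePlace K) (x : Adl K) :
    T5.infHom v x = InfinitePlace.Completion.extensionEmbedding v (x.1 v) :=
  rfl

/-- `ι` is compatible with `K → K'`. -/
theorem iota600_algebraMap (x : K) :
    iota600 K K' (algebraMap K (Adl K) x) = algebraMap K' (Adl K') (algebraMap K K' x) := by
  refine Prod.ext ?_ ?_
  · funext w
    exact locInf600_algebraMap w x
  · refine RestrictedProduct.ext _ _ ?_
    intro w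
    exact locB600_algebraMap w x

/-! ## Appendix: the equation lemmas of the definitions are realised HERE -/

theorem eqns_realised_iotaInf600 : True := by
  have _a1 := @belowInf600.eq_1
  have _a2 := @belowInf600.eq_def
  have _a3 := @belowInf600.eq_unfold
  have _a4 := @locInf600.eq_1
  have _a5 := @locInf600.eq_def
  have _a6 := @locInf600.eq_unfold
  have _a7 := @iotaInf600.eq_1
  have _a8 := @iotaInf600.eq_def
  have _a9 := @iotaInf600.eq_unfold
  have _a10 := @iota600.eq_1
  have _a11 := @iota600.eq_def
  have _a12 := @iota600.eq_unfold
  trivial

end Fermat.Agent.LT.T7.H600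

end
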